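import Fermat.Agent.LevelRaising.Lattice.Basic
import Fermat.Agent.LevelRaising.IharaK
import Fermat.Agent.LevelRaising.Parabolic
import Mathlib.LinearAlgebra.Matrix.Charpoly.LinearMap

/-!
# A class killed by both degeneracy maps with a prescribed reduction
-/

set_option autoImplicit false

noncomputable section

namespace Fermat.Agent.LevelRaising

open CongruenceSubgroup Function Fermat.Agent.Periods Polynomial
open ModularCurve.Period
open scoped MatrixGroups BigOperators

theorem aeval_intertwine {R M M' : Type*} [CommRing R] [AddCommGroup M] [Module R M]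
    [AddCommGroup M'] [Module R M'] (g : M →ₗ[R] M') (f : Module.End R M) (f' : Module.End R M')
    (h : ∀ z, g (f z) = f' (g z)) (P : R[X]) (z : M) :
    g (aeval f P z) = aeval f' P (g z) := by
  induction P using Polynomial.induction_on' with
  | add P Q hP hQ => simp only [map_add, LinearMap.add_apply, hP, hQ]
  | monomial n a =>
    simp only [aeval_monomial, Module.End.mul_apply, Module.algebraMap_end_apply, map_smul]
    congr 1
    induction n generalizing z with
    | zero => simp
    | succ n ih => rw [pow_succ, pow_succ, Module.End.mul_apply, Module.End.mul_apply, ih, h]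

variable {q N p ℓ : ℕ} [NeZero N] [NeZero (N * q)] (h : RaiseData q N) (a : AuxPrime q N ℓ)
variable (B : ValuationSubring ℂ)

local notation "HN" => Additive (Gamma0 N) →+ B
local notation "HM" => Additive (Gamma0 (N * q)) →+ B

/-- both degeneracy operators -/
def iStar : (Additive (Gamma0 (N * q)) →+ B) →ₗ[B]
    (Additive (Gamma0 N) →+ B) × (Additive (Gamma0 N) →+ B) :=
  (h.corSys.op B).prod (h.starSys.op B)

omit [NeZero N] [NeZero (N * q)] in
theorem iStar_apply (x : HM) : iStar h B x = (h.corSys.apply x, h.starSys.apply x) := rfl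

/-- `(T_ℓ - 1 - ℓ)` at level `N` on pairs -/
def tPair : Module.End B ((Additive (Gamma0 N) →+ B) × (Additive (Gamma0 N) →+ B)) :=
  LinearMap.prodMap (tOp a.prime a.not_dvd_left B) (tOp a.prime a.not_dvd_left B)

/-- `(T_ℓ - 1 - ℓ)` at level `Nq` -/
abbrev tBig : Module.End B (Additive (Gamma0 (N * q)) →+ B) := tOp a.prime a.not_dvd B

variable {B}

theorem iStar_tBig (h2 : IsUnit (2 : B)) (x : HM) :
    iStar h B (tBig a B x) = tPair a B (iStar h B x) := by
  have e1 : ∀ y : HM, h.corSys.apply (tBig a B y) =
      tOp a.prime a.not_dvd_left B (h.corSys.apply y) := fun y => by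
    show h.corSys.op B (homT a.prime a.not_dvd B y - (1 + ℓ) • y) =
      homT a.prime a.not_dvd_left B (h.corSys.apply y) - (1 + ℓ) • h.corSys.op B y
    rw [map_sub, map_nsmul, h.homT_cor h2 three_torsionFree a.prime a.not_dvd_left a.not_dvd]
    rfl
  have e2 : ∀ y : HM, h.starSys.apply (tBig a B y) =
      tOp a.prime a.not_dvd_left B (h.starSys.apply y) := fun y => by
    show h.starSys.op B (homT a.prime a.not_dvd B y - (1 + ℓ) • y) =
      homT a.prime a.not_dvd_left B (h.starSys.apply y) - (1 + ℓ) • h.starSys.op B y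
    rw [map_sub, map_nsmul, h.homT_star h2 three_torsionFree a.prime a.not_dvd_left a.not_dvd]
    rfl
  exact Prod.ext (e1 x) (e2 x)

omit [NeZero (N * q)] in
/-- The square of `T_ℓ - 1 - ℓ` maps pairs into the image of the degeneracy operators modulo the
maximal ideal. -/
theorem range_tPair_sq (hp : p.Prime) (hp2 : p ≠ 2) (hpB : (p : B) ∈ IsLocalRing.maximalIdeal B)
    (z : HN × HN) :
    (LinearMap.range (iStar h B)).mkQ ((tPair a B * tPair a B) z) ∈
      IsLocalRing.maximalIdeal B •
        (⊤ : Submodule B ((HN × HN) ⧸ LinearMap.range (iStar h B))) := by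
  have := charP_residueField hp hpB
  obtain ⟨x, e1, e2⟩ := h.exists_residue_tOp_sq a hp hp2 three_torsionFree z.1 z.2
  set y := (tPair a B * tPair a B) z
  have hy : y - iStar h B x ∈ IsLocalRing.maximalIdeal B • (⊤ : Submodule B (HN × HN)) := by
    rw [show y - iStar h B x = LinearMap.inl B HN HN (y.1 - h.corSys.apply x) +
        LinearMap.inr B HN HN (y.2 - h.starSys.apply x) by
      ext1 <;> simp [iStar_apply]]
    refine add_mem ?_ ?_
    · have := Submodule.mem_map_of_mem (f := LinearMap.inl B HN HN)
        (mem_smul_top_of_redH (y.1 - h.corSys.apply x)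
          (by rw [map_sub, sub_eq_zero]; exact e1.symm))
      rw [Submodule.map_smul''] at this
      exact Submodule.smul_mono le_rfl le_top this
    · have := Submodule.mem_map_of_mem (f := LinearMap.inr B HN HN)
        (mem_smul_top_of_redH (y.2 - h.starSys.apply x)
          (by rw [map_sub, sub_eq_zero]; exact e2.symm))
      rw [Submodule.map_smul''] at this
      exact Submodule.smul_mono le_rfl le_top this
  have h1 := Submodule.mem_map_of_mem (f := (LinearMap.range (iStar h B)).mkQ) hy
  rw [Submodule.map_smul'', Submodule.map_top, Submodule.range_mkQ] at h1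
  have e : (LinearMap.range (iStar h B)).mkQ (y - iStar h B x) =
      (LinearMap.range (iStar h B)).mkQ y :=
    (Submodule.Quotient.eq _).mpr ⟨-x, by rw [LinearMap.map_neg, sub_sub_cancel_left]⟩
  exact e ▸ h1

set_option maxHeartbeats 800000 in
include a in
/-- The key construction. -/
theorem exists_kernel_class (hp : p.Prime) (hp2 : p ≠ 2)
    (hpB : (p : B) ∈ IsLocalRing.maximalIdeal B)
    (w : HN) (hw : IsParabolicHom (Gamma0 N) w) (hw0 : redH B w ≠ 0)
    (ev : ℕ → B) (heig : ∀ r (hr : r.Prime) (hrN : ¬ r ∣ N), homT hr hrN B w = ev r • w)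
    (hℓev : IsLocalRing.residue B (ev ℓ - (1 + ℓ)) ≠ 0)
    (e : ℤ) (he : e * e = 1)
    (hqev : IsLocalRing.residue B (((q : B) + 1) + (e : B) * ev q) = 0) :
    ∃ k0 : HM, h.corSys.apply k0 = 0 ∧ h.starSys.apply k0 = 0 ∧
      IsParabolicHom (Gamma0 (N * q)) k0 ∧ redH B k0 ≠ 0 ∧
      ∀ r (hr : r.Prime) (hrM : ¬ r ∣ N * q),
        homT hr hrM (IsLocalRing.ResidueField B) (redH B k0) =
          IsLocalRing.residue B (ev r) • redH B k0 := by
  have h2 := isUnit_two hp hp2 hpB
  have := charP_residueField hp hpB
  set K := IsLocalRing.ResidueField B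
  set x : HM := (RaiseData.resSys q N).apply w + e • h.conjSys.apply w with hx
  set π : B := ((q : B) + 1) + (e : B) * ev q with hπ
  have hTq : homT h.prime h.not_dvd B w = ev q • w := heig q h.prime h.not_dvd
  have he' : (e : B) * (e : B) = 1 := by exact_mod_cast congrArg (Int.cast : ℤ → B) he
  -- the image of `x`
  have hix : iStar h B x = π • (w, e • w) := by
    refine Prod.ext ?_ ?_
    · show h.corSys.op B x = π • w
      rw [hx, map_add, map_zsmul]
      show h.corSys.apply ((RaiseData.resSys q N).apply w) + e • h.corSys.apply (h.conjSys.apply w) = _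
      rw [h.cor_res, h.cor_conj B, hTq, hπ]
      module
    · show h.starSys.op B x = π • e • w
      rw [hx, map_add, map_zsmul]
      show h.starSys.apply ((RaiseData.resSys q N).apply w) + e • h.starSys.apply (h.conjSys.apply w) = _
      rw [h.star_res B, h.star_conj, hTq, hπ]
      match_scalars
      linear_combination (-(ev q)) * he'
  -- the quotient by the image of the degeneracy operators
  have : Fintype (Matrix.SpecialLinearGroup (Fin 2) ℤ ⧸ Gamma0 N) :=
    Subgroup.fintypeQuotientOfFiniteIndex
  have : Module.Finite B HN := finite_hom B (Fermat.Agent.Gamma0.neg_one_mem_Gamma0 N) h2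
    three_torsionFree
  set T2 : Module.End B (HN × HN) := tPair a B * tPair a B with hT2
  have hT2' : ∀ y, iStar h B ((tBig a B * tBig a B) y) = T2 (iStar h B y) := fun y => by
    rw [hT2, Module.End.mul_apply, Module.End.mul_apply, iStar_tBig h a h2, iStar_tBig h a h2]
  set f : Module.End B ((HN × HN) ⧸ LinearMap.range (iStar h B)) :=
    Submodule.mapQ _ _ T2 (by
      rintro _ ⟨y, rfl⟩
      exact ⟨_, hT2' y⟩) with hf
  have hfr : LinearMap.range f ≤ IsLocalRing.maximalIdeal B • ⊤ := by
    rintro _ ⟨y, rfl⟩
    obtain ⟨y, rfl⟩ := Submodule.Quotient.mk_surjective _ y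
    exact range_tPair_sq h a hp hp2 hpB y
  obtain ⟨P, hPm, -, hPc, hP0⟩ :=
    LinearMap.exists_monic_and_natDegree_eq_and_coeff_mem_pow_and_aeval_eq_zero B f _ hfr
  have hPz : aeval T2 P (w, e • w) ∈ LinearMap.range (iStar h B) := by
    rw [← Submodule.Quotient.mk_eq_zero]
    have := aeval_intertwine (LinearMap.range (iStar h B)).mkQ T2 f (fun _ => rfl) P (w, e • w)
    exact this.trans ((LinearMap.congr_fun hP0 _).trans rfl)
  obtain ⟨z', hz'⟩ := hPz
  set y : HM := aeval (tBig a B * tBig a B) P x - π • z' with hy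
  have hiy : iStar h B y = 0 := by
    rw [hy, map_sub, map_smul, aeval_intertwine (iStar h B) _ T2 hT2', hix, map_smul, hz', sub_self]
  refine ⟨tBig a B y, ?_, ?_, ?_, ?_⟩
  · have := congrArg Prod.fst (iStar_tBig h a h2 y)
    rw [hiy, map_zero] at this
    exact this
  · have := congrArg Prod.snd (iStar_tBig h a h2 y)
    rw [hiy, map_zero] at this
    exact this
  · intro γ hγ
    rw [show tBig a B y = homT a.prime a.not_dvd ℤ y - (1 + ℓ) • y from tOp_apply _ _ B y,
      AddMonoidHom.sub_apply, AddMonoidHom.smul_apply]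
    have : NeZero ℓ := ⟨a.prime.ne_zero⟩
    rw [homT_apply_parabolic a.prime a.not_dvd a.dvd_sub' nsmul_eq_zero_imp y γ hγ, sub_self]
  -- reductions
  have hwK : IsParabolicHom (Gamma0 N) (redH B w) := fun γ hγ => by
    rw [redH_apply, hw γ hγ, map_zero]
  set c : K := IsLocalRing.residue B (ev ℓ - (1 + ℓ)) with hc
  have hredT : ∀ r (hr : r.Prime) (hrN : ¬ r ∣ N),
      homT hr hrN K (redH B w) = IsLocalRing.residue B (ev r) • redH B w := fun r hr hrN => by
    rw [← redH_smul, ← heig r hr hrN]
    exact homT_comp hr hrN B K _ w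
  have hev : tOp a.prime a.not_dvd_left K (redH B w) = c • redH B w := by
    show homT a.prime a.not_dvd_left K (redH B w) - (1 + ℓ) • redH B w = _
    rw [hredT, hc, map_sub, map_add, map_one, map_natCast, sub_smul, ← Nat.cast_smul_eq_nsmul K,
      Nat.cast_add, Nat.cast_one]
  have hxbar : redH B x = (RaiseData.resSys q N).apply (redH B w) + e • h.conjSys.apply (redH B w) := by
    rw [hx, map_add, map_zsmul]
    simp only [redH, AddMonoidHom.compHom_apply_apply, HeckeSystem.apply_comp]
  have hx0 : redH B x ≠ 0 := by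
    rw [hxbar]
    exact h.injective_res_add_conj a hp hp2 hwK hw0 hℓev hev e
  have hxeig : ∀ r (hr : r.Prime) (hrM : ¬ r ∣ N * q),
      homT hr hrM K (redH B x) = IsLocalRing.residue B (ev r) • redH B x := by
    intro r hr hrM
    have hrN : ¬ r ∣ N := fun hd => hrM (hd.mul_right q)
    rw [hxbar, map_add, map_zsmul, homT_res K hr hrN hrM, h.homT_conj K hr hrN hrM, hredT r hr hrN,
      show (RaiseData.resSys q N).apply (IsLocalRing.residue B (ev r) • redH B w) = _ from
        map_smul ((RaiseData.resSys q N).op K) _ _,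
      show h.conjSys.apply (IsLocalRing.residue B (ev r) • redH B w) = _ from
        map_smul (h.conjSys.op K) _ _, smul_add, smul_comm e]
    rfl
  have htK : ∀ φ : HM, redH B (tBig a B φ) = tOp a.prime a.not_dvd K (redH B φ) :=
    fun φ => (tOp_comp _ _ B K _ φ).symm
  have htx : ∀ φ : HM, ∀ d : K, redH B φ = d • redH B x →
      redH B (tBig a B φ) = (c * d) • redH B x := by
    intro φ d hd
    rw [htK, hd, map_smul, show tOp a.prime a.not_dvd K (redH B x) = c • redH B x from ?_, smul_smul,
      mul_comm d c]
    show homT a.prime a.not_dvd K (redH B x) - (1 + ℓ) • redH B x = _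
    rw [hxeig, hc, map_sub, map_add (IsLocalRing.residue B), map_one, map_natCast, sub_smul, ← Nat.cast_smul_eq_nsmul K,
      Nat.cast_add, Nat.cast_one]
  have hpow : ∀ n, redH B (((tBig a B * tBig a B) ^ n) x) = (c ^ (2 * n)) • redH B x := by
    intro n
    induction n with
    | zero => simp
    | succ n ih =>
      rw [pow_succ', Module.End.mul_apply, Module.End.mul_apply, htx _ _ (htx _ _ ih)]
      congr 1
      ring
  have haev : ∀ Q : B[X], redH B (aeval (tBig a B * tBig a B) Q x) =
      (Q.map (IsLocalRing.residue B)).eval (c ^ 2) • redH B x := by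
    intro Q
    induction Q using Polynomial.induction_on' with
    | add Q Q' hQ hQ' => simp only [map_add, LinearMap.add_apply, Polynomial.map_add, eval_add,
        add_smul, hQ, hQ']
    | monomial n b =>
      rw [aeval_monomial, Module.End.mul_apply, Module.algebraMap_end_apply, redH_smul, hpow,
        smul_smul, map_monomial, eval_monomial, pow_mul]
  have hPbar : P.map (IsLocalRing.residue B) = X ^ P.natDegree := by
    refine Polynomial.ext fun k => ?_
    rw [coeff_map, coeff_X_pow]
    rcases lt_trichotomy k P.natDegree with hk | hk | hk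
    · rw [if_neg hk.ne, IsLocalRing.residue_eq_zero_iff]
      exact Ideal.pow_le_self (by omega) (hPc k)
    · rw [hk, if_pos rfl, hPm.coeff_natDegree, map_one]
    · rw [if_neg hk.ne', coeff_eq_zero_of_natDegree_lt hk, map_zero]
  have hredy : redH B y = (c ^ 2) ^ P.natDegree • redH B x := by
    rw [hy, map_sub, redH_smul, hqev, zero_smul, sub_zero, haev, hPbar, eval_pow, eval_X]
  have hk := htx y _ hredy
  refine ⟨?_, fun r hr hrM => ?_⟩
  · rw [hk]
    exact smul_ne_zero (mul_ne_zero hℓev (pow_ne_zero _ (pow_ne_zero _ hℓev))) hx0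
  · rw [hk, map_smul, hxeig r hr hrM, smul_comm]

end Fermat.Agent.LevelRaising
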